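/-
S17 / INST : definitions   (owner helper29).
INST constructs the abstract datum `Glob.HtData 𝒜 X Γ` from LOC (`E : Loc.PE Kb F`) and RAT (`R : Rat.RS Kb F GQ`, `hE : R.IsRat E`).

* `PX R` : the places of `F` with the action of `GQ` through `R.ρ`.
* `dW E e = card (E.B e)`, `idx E e : Fin (dW E e) ≃ E.B e`, `wb E e l` = the `l`-th monomial basis vector of `W e`,
  `sec E e s = ∑ l, s l • wb E e l` (rational section), `evb E e l x = (wb E e l)(x~)`.
* `ofMS T` : the divisor of a multiset of places; `toMS D` : the multiset of (the positive part of) a divisor.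
* `Zs h E e s = toMS (div (sec s) + e n0 oo)` : the zero divisor of a section.
* `cl h oo T = [T - (card T) oo]`.
-/
import Fermat.Agent.S17.Glob.Defs
import Fermat.Agent.S17.Loc.Mult
import Fermat.Agent.S17.Rat.PE
import Fermat.Agent.S17.Rat.Pencil

set_option autoImplicit false

noncomputable section

namespace Fermat.Agent.S17.Inst

open AlgebraicCurve Fermat.Agent.S37 Fermat.Agent.S27 Fermat.Agent.S17.Loc Fermat.Agent.S17.Rat
  Fermat.Agent.S17.Glob MvPolynomial

section General

variable {K F : Type*} [Field K] [Field F] [Algebra K F]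

/-- the divisor of a multiset of places -/
def ofMS : Multiset (Place K F) →+ Divisor K F :=
  Multiset.sumAddMonoidHom.comp (Multiset.mapAddMonoidHom fun x => Finsupp.single x (1 : ℤ))

/-- the multiset of the positive part of a divisor -/
def toMS (D : Divisor K F) : Multiset (Place K F) :=
  Finsupp.toMultiset (D.mapRange Int.toNat rfl)

/-- `T ↦ T - (card T) oo` -/
def clD (oo : Place K F) : Multiset (Place K F) →+ Divisor K F :=
  ofMS - ((multiplesHom (Divisor K F)) (Finsupp.single oo (1 : ℤ))).comp Multiset.cardHom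

end General

variable {F : Type} [Field F] [Algebra Kb F]

/-- the places of `F` with the Galois action given by `R` -/
def PX (_R : RS Kb F GQ) : Type := Place Kb F

instance instMulActionPX (R : RS Kb F GQ) : MulAction GQ (PX R) :=
  MulAction.compHom (Place Kb F) R.ρ

theorem smul_PX (R : RS Kb F GQ) (σ : GQ) (x : PX R) :
    σ • x = (R.ρ σ • (show Place Kb F from x) : Place Kb F) := rfl

/-- `dim W e` -/
def dW (E : PE Kb F) (e : ℕ) : ℕ := (E.B e).card

/-- enumeration of the monomial basis -/
def idx (E : PE Kb F) (e : ℕ) : Fin (dW E e) ≃ E.B e := (E.B e).equivFin.symm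

/-- the basis vectors of `W e` -/
def wb (E : PE Kb F) (e : ℕ) (l : Fin (dW E e)) : F :=
  aeval E.f (monomial (idx E e l : Fin (E.r + 1) →₀ ℕ) (1 : Kb))

/-- the polynomial with rational coefficients `s` -/
def pol (E : PE Kb F) (e : ℕ) (s : Fin (dW E e) → ℚ) : MvPolynomial (Fin (E.r + 1)) Kb :=
  ∑ l, monomial (idx E e l : Fin (E.r + 1) →₀ ℕ) (algebraMap ℚ Kb (s l))

/-- the rational section with coordinates `s` -/
def sec (E : PE Kb F) (e : ℕ) (s : Fin (dW E e) → ℚ) : F := ∑ l, algebraMap ℚ Kb (s l) • wb E e l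

/-- the values of the basis vectors -/
def evb (E : PE Kb F) (e : ℕ) (l : Fin (dW E e)) (x : Place Kb F) : Kb := E.ev e (wb E e l) x

/-- the zero divisor of a section, as a divisor -/
def Zd (h : IsFF Kb F) (E : PE Kb F) (e : ℕ) (s : Fin (dW E e) → ℚ) : Divisor Kb F :=
  AR.dv h (sec E e s) + E.D e

/-- the zero divisor of a section, as a multiset -/
def Zs (h : IsFF Kb F) (E : PE Kb F) (e : ℕ) (s : Fin (dW E e) → ℚ) : Multiset (Place Kb F) :=
  toMS (Zd h E e s)

/-- `log ‖x~‖_v` -/
def lnx (𝒜 : AVFam) (E : PE Kb F) (v : Pl) (x : Place Kb F) : ℝ := Real.log (E.nx (𝒜.av v) x)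

/-- `- log d_v(x,y)` -/
def llam (𝒜 : AVFam) (E : PE Kb F) (v : Pl) (x y : Place Kb F) : ℝ :=
  - Real.log (E.dist (𝒜.av v) x y)

/-- `log` of an M_K-constant -/
def lmk (𝒜 : AVFam) (S : Finset Kb) (M : ℕ) (v : Pl) : ℝ := Real.log (MK.mk S M (𝒜.av v))

end Fermat.Agent.S17.Inst
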