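/-
S17 / INST, KEY [S17/I-SEC]  (~350 lines; uses the STATEMENTS of Loc/Gen, Loc/Ev, Loc/Sec, Loc/RR, Rat/PE).  Rational sections.

`hB := E.isMB_B h e : E.IsMB e (E.B e)` = (all degrees `e`) ∧ (independent) ∧ (span = W e).
`wb_mem`: `aeval_mem (isHomogeneous_monomial _ (hB.1 _ (idx E e l).2))`.     `sec_eq_aeval`: `map_sum`, `aeval (monomial m c) = c • aeval (monomial m 1)`.
`pol_support`: `support_sum`/`support_monomial_subset`.   `co_sec`: `sec_eq_aeval` + `E.co_unique h pol_support`.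
`coeff_pol`: `coeff_sum`, `coeff_monomial`, `idx` injective (`Finset.sum_eq_single l`).   `coeff_pol_of_notMem`: `m ∉ E.B e → coeff = 0`.
`sec_ne_zero`: `co_eq_zero_iff` + `coeff_pol`.    `nm_sec`: `E.nm = nP v (pol ..)`; both inequalities by `nP_le`/`le_nP`/`ciSup_le`/`le_ciSup` (if `dW = 0` both are `0`).
`ev_sec`: `ev_sum`, `ev_smul`.     `inv_wb`: `aeval f (monomial m 1) = ∏ f_i^(m i)`: `Inv.prod`, `Inv.pow`, `hE.f`.   `inv_sec`: `Inv.sum`, `Inv.mul (inv_ratCast _)` (`Algebra.smul_def`, `algebraMap ℚ Kb r = (r : Kb)`).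
`exists_sec_of_inv`: `hE.co_rat e hB u hu hinv m` gives rational coefficients; `s l := that rational for m = idx l`; `pol E e s = E.co e u` (`MvPolynomial.ext`, `co_spec`), so `sec s = aeval (co u) = u`.
`dW_eq`: `finrank_L` at `E.D m` (degree `m n0 ≥ n0 ≥ c0`), `finrank (W m) = card (B m)` (`finrank_span_eq_card` from hB.2).   `genus_lt`: `finrank_L` at `single oo c0`: `0 ≤ c0 + 1 - g`.
`exists_mul`: `mul s w := fun l => the rational r with coeff (idx l) (co (e+e') (sec s * sec w)) = r` (Classical.choose of `exists_sec_of_inv` applied to `sec s * sec w`, `W_mul`, `Inv.mul`);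
   better: `φ : Sec → F` is ℚ-linear and injective (`sec_injective`); define `mul s` by `LinearMap` `map_add'`/`map_smul'` proved through injectivity of `sec`.
-/
import Fermat.Agent.S17.Inst.Defs

set_option autoImplicit false

noncomputable section

namespace Fermat.Agent.S17.Inst

open AlgebraicCurve Fermat.Agent.S37 Fermat.Agent.S27 Fermat.Agent.S17.Loc Fermat.Agent.S17.Rat
  Fermat.Agent.S17.Glob MvPolynomial

variable {F : Type} [Field F] [Algebra Kb F] (E : PE Kb F)

theorem wb_mem (h : IsFF Kb F) (e : ℕ) (l : Fin (dW E e)) : wb E e l ∈ E.W e :=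
  E.aeval_mem (isHomogeneous_monomial _ ((E.isMB_B h e).1 _ (idx E e l).2))

theorem sec_mem (h : IsFF Kb F) (e : ℕ) (s : Fin (dW E e) → ℚ) : sec E e s ∈ E.W e :=
  Submodule.sum_mem _ fun l _ => Submodule.smul_mem _ _ (wb_mem E h e l)

theorem sec_eq_aeval (e : ℕ) (s : Fin (dW E e) → ℚ) : sec E e s = aeval E.f (pol E e s) := by
  unfold sec pol wb
  rw [map_sum]
  refine Finset.sum_congr rfl fun l _ => ?_
  rw [← map_smul, smul_monomial, smul_eq_mul, mul_one]

theorem pol_support (e : ℕ) (s : Fin (dW E e) → ℚ) : (pol E e s).support ⊆ E.B e := by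
  classical
  unfold pol
  refine (support_sum).trans ?_
  intro m hm
  rw [Finset.mem_biUnion] at hm
  obtain ⟨l, -, hl⟩ := hm
  have := support_monomial_subset hl
  rw [Finset.mem_singleton] at this
  rw [this]
  exact (idx E e l).2

theorem coeff_pol (e : ℕ) (s : Fin (dW E e) → ℚ) (l : Fin (dW E e)) :
    (pol E e s).coeff (idx E e l : Fin (E.r + 1) →₀ ℕ) = algebraMap ℚ Kb (s l) := by
  classical
  unfold pol
  rw [coeff_sum, Finset.sum_eq_single l]
  · rw [coeff_monomial, if_pos rfl]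
  · intro l' _ hl'
    rw [coeff_monomial, if_neg]
    intro hcon
    exact hl' ((idx E e).injective (Subtype.ext hcon))
  · intro hl; exact absurd (Finset.mem_univ l) hl

theorem co_sec (h : IsFF Kb F) (e : ℕ) (s : Fin (dW E e) → ℚ) : E.co e (sec E e s) = pol E e s := by
  rw [sec_eq_aeval]
  exact E.co_unique h (pol_support E e s)

theorem sec_add (e : ℕ) (s w : Fin (dW E e) → ℚ) : sec E e (s + w) = sec E e s + sec E e w := by
  unfold sec
  rw [← Finset.sum_add_distrib]
  refine Finset.sum_congr rfl fun l _ => ?_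
  rw [Pi.add_apply, map_add, add_smul]

theorem sec_smul (e : ℕ) (c : ℚ) (s : Fin (dW E e) → ℚ) :
    sec E e (c • s) = algebraMap ℚ Kb c • sec E e s := by
  unfold sec
  rw [Finset.smul_sum]
  refine Finset.sum_congr rfl fun l _ => ?_
  rw [Pi.smul_apply, smul_eq_mul, map_mul, mul_smul]

theorem sec_injective (h : IsFF Kb F) (e : ℕ) : Function.Injective (sec E e) := by
  intro s w hsw
  funext l
  have h1 := coeff_pol E e s l
  have h2 := coeff_pol E e w l
  rw [← co_sec E h, hsw, co_sec E h, h2] at h1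
  exact (algebraMap ℚ Kb).injective h1.symm

theorem sec_zero (e : ℕ) : sec E e 0 = 0 := by
  unfold sec
  simp

theorem sec_ne_zero (h : IsFF Kb F) (e : ℕ) {s : Fin (dW E e) → ℚ} (hs : s ≠ 0) : sec E e s ≠ 0 := by
  intro h0
  apply hs
  apply sec_injective E h e
  rw [h0, sec_zero]

theorem nm_sec (h : IsFF Kb F) (v : AbsoluteValue Kb ℝ) (e : ℕ) (s : Fin (dW E e) → ℚ) :
    E.nm v e (sec E e s) = ⨆ l, v (algebraMap ℚ Kb (s l)) := by
  unfold PE.nm
  rw [co_sec E h]
  apply le_antisymm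
  · apply nP_le
    intro m
    by_cases hm : m ∈ E.B e
    · obtain ⟨l, hl⟩ := (idx E e).surjective ⟨m, hm⟩
      have : m = (idx E e l : Fin (E.r + 1) →₀ ℕ) := by rw [hl]
      rw [this, coeff_pol]
      exact le_ciSup (f := fun l => v (algebraMap ℚ Kb (s l))) (Set.finite_range _).bddAbove l
    · have : (pol E e s).coeff m = 0 := by
        rw [← MvPolynomial.notMem_support_iff]
        exact fun hcon => hm (pol_support E e s hcon)
      rw [this, map_zero]
      exact Real.iSup_nonneg fun _ => v.nonneg _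
  · rcases isEmpty_or_nonempty (Fin (dW E e)) with hemp | hne
    · rw [Real.iSup_of_isEmpty]; exact nP_nonneg v _
    · apply ciSup_le
      intro l
      rw [← coeff_pol E e s l]
      exact le_nP v _ _

theorem nm_wb (h : IsFF Kb F) (v : AbsoluteValue Kb ℝ) (e : ℕ) (l : Fin (dW E e)) : E.nm v e (wb E e l) = 1 :=
  E.nm_monomial h v (idx E e l).2

theorem ev_sec (h : IsFF Kb F) (e : ℕ) (s : Fin (dW E e) → ℚ) (x : Place Kb F) :
    E.ev e (sec E e s) x = ∑ l, algebraMap ℚ Kb (s l) * evb E e l x := by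
  unfold sec
  rw [E.ev_sum h _ _ (fun l _ => Submodule.smul_mem _ _ (wb_mem E h e l))]
  refine Finset.sum_congr rfl fun l _ => ?_
  rw [E.ev_smul h _ (wb_mem E h e l)]
  rfl

/-- every element of `W e` is a `Kb`-combination of the `wb` -/
theorem exists_comb (h : IsFF Kb F) (e : ℕ) {u : F} (hu : u ∈ E.W e) : ∃ c : Fin (dW E e) → Kb, u = ∑ l, c l • wb E e l := by
  have hsp := (E.isMB_B h e).2.2
  rw [← hsp, Submodule.mem_span_range_iff_exists_fun] at hu
  obtain ⟨c, hc⟩ := hu
  refine ⟨fun l => c (idx E e l), ?_⟩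
  rw [← hc]
  exact (Equiv.sum_comp (idx E e) (fun m => c m • aeval E.f (monomial (m : Fin (E.r + 1) →₀ ℕ) (1 : Kb)))).symm

theorem finrank_W (h : IsFF Kb F) (m : ℕ) : Module.finrank Kb (E.W m) = dW E m := by
  have hB := E.isMB_B h m
  rw [← hB.2.2, finrank_span_eq_card hB.2.1]
  simp [dW]

theorem dW_eq (h : IsFF Kb F) (m : ℕ) (hm : 1 ≤ m) : dW E m + genusFF Kb F = m * E.n0 + 1 := by
  have hn0 : E.n0 = 2 * E.c0 + 4 := rfl
  have hle : E.n0 ≤ m * E.n0 := Nat.le_mul_of_pos_left _ hm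
  have h1 := E.finrank_L h (E.D m) (by rw [E.degree_D h]; exact_mod_cast (by omega : E.c0 ≤ m * E.n0))
  rw [E.degree_D h] at h1
  have h2 : Module.finrank Kb (riemannRochSpace (E.D m)) = dW E m := finrank_W E h m
  rw [h2] at h1
  have : ((dW E m + genusFF Kb F : ℕ) : ℤ) = ((m * E.n0 + 1 : ℕ) : ℤ) := by
    push_cast at h1 ⊢
    linarith
  exact_mod_cast this

theorem genus_lt (h : IsFF Kb F) : genusFF Kb F < E.n0 := by
  have hn0 : E.n0 = 2 * E.c0 + 4 := rfl
  have hdeg : Divisor.degree (Finsupp.single E.oo (E.c0 : ℤ) : Divisor Kb F) = E.c0 := by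
    rw [Divisor.degree_single, h.deg_eq_one]; simp
  have h1 := E.finrank_L h (Finsupp.single E.oo (E.c0 : ℤ)) (by rw [hdeg])
  rw [hdeg] at h1
  have h2 : (0 : ℤ) ≤ (Module.finrank Kb (riemannRochSpace (Finsupp.single E.oo (E.c0 : ℤ) : Divisor Kb F)) : ℤ) :=
    Int.natCast_nonneg _
  omega

variable {E} {R : RS Kb F GQ}

theorem inv_wb (hE : R.IsRat E) (e : ℕ) (l : Fin (dW E e)) : R.Inv (wb E e l) := by
  unfold wb
  rw [aeval_monomial, map_one, one_mul, Finsupp.prod]
  exact RS.Inv.prod _ fun i _ => (hE.f i).pow _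

theorem inv_sec (hE : R.IsRat E) (e : ℕ) (s : Fin (dW E e) → ℚ) : R.Inv (sec E e s) := by
  unfold sec
  refine RS.Inv.sum _ fun l _ => ?_
  rw [Algebra.smul_def]
  refine RS.Inv.mul ?_ (inv_wb hE e l)
  have : algebraMap ℚ Kb (s l) = ((s l : ℚ) : Kb) := (eq_ratCast _ _)
  rw [this]
  exact RS.inv_ratCast _

theorem exists_sec_of_inv (h : IsFF Kb F) (hE : R.IsRat E) (e : ℕ) {u : F} (hu : u ∈ E.W e) (hinv : R.Inv u) :
    ∃ s : Fin (dW E e) → ℚ, sec E e s = u := by
  choose r hr using fun m => hE.co_rat h e u hu hinv m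
  refine ⟨fun l => r (idx E e l), ?_⟩
  have hco := E.co_spec h hu
  rw [sec_eq_aeval]
  have : pol E e (fun l => r (idx E e l)) = E.co e u := by
    ext m
    by_cases hm : m ∈ E.B e
    · obtain ⟨l, hl⟩ := (idx E e).surjective ⟨m, hm⟩
      have hml : m = (idx E e l : Fin (E.r + 1) →₀ ℕ) := by rw [hl]
      rw [hml, coeff_pol, hr]
      exact eq_ratCast _ _
    · have h1 : (pol E e (fun l => r (idx E e l))).coeff m = 0 := by
        rw [← MvPolynomial.notMem_support_iff]
        exact fun hcon => hm (pol_support E e _ hcon)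
      have h2 : (E.co e u).coeff m = 0 := by
        rw [← MvPolynomial.notMem_support_iff]
        exact fun hcon => hm (hco.1 hcon)
      rw [h1, h2]
  rw [this, hco.2]

theorem exists_mul (h : IsFF Kb F) (hE : R.IsRat E) (e e' : ℕ) :
    ∃ mul : (Fin (dW E e) → ℚ) → (Fin (dW E e') → ℚ) →ₗ[ℚ] (Fin (dW E (e + e')) → ℚ),
      ∀ s w, sec E (e + e') (mul s w) = sec E e s * sec E e' w := by
  choose m hm using fun (s : Fin (dW E e) → ℚ) (w : Fin (dW E e') → ℚ) =>
    exists_sec_of_inv h hE (e + e') (E.W_mul (sec_mem E h e s) (sec_mem E h e' w))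
      ((inv_sec hE e s).mul (inv_sec hE e' w))
  refine ⟨fun s =>
    { toFun := m s
      map_add' := fun w w' => ?_
      map_smul' := fun c w => ?_ }, fun s w => hm s w⟩
  · apply sec_injective E h
    rw [sec_add, hm, hm, hm, sec_add, mul_add]
  · apply sec_injective E h
    rw [RingHom.id_apply, sec_smul, hm, hm, sec_smul, Algebra.smul_def, Algebra.smul_def]
    ring

end Fermat.Agent.S17.Inst
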