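/-
S17 / INST, KEY [S17/I-LOG]  (~300 lines; uses the STATEMENTS of Loc/Sec, Loc/Sep, Loc/Dist, Rat/PE, MK/Defs).  From multiplicative to logarithmic form; finite supports.

`fs_lmk`: for `v = some p` outside the finite set `⋃_{a ∈ S, a ≠ 0} {v | av v a ≠ 1}` (`𝒜.fin`) and `v ≠ none`: `tau (av v) = 1` (`MK.tau_of_na (𝒜.na p)`), every `max 1 (av v a) = 1`
   (`a = 0`: `max 1 0 = 1`), so `mk = 1`, `log 1 = 0`.   So the support is contained in a finite set (`Set.Finite.subset`, `Set.Finite.biUnion`, `Set.finite_singleton none`).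
`lnx_nonneg`: `Real.log_nonneg (E.one_le_nx h _ x)`.
`lnx_fs`: outside the finite set `⋃_j {v | lift x j ≠ 0 ∧ av v (lift x j) ≠ 1}`: all `av v (lift x j) ∈ {0,1}` and `lift x (a x) = 1` (`lift_a`), so `nx = 1` (`le_antisymm (nv_le ..) (one_le_nx ..)`).
`llam_symm`: `E.dist_comm`.
`llam_fs`: `x ≠ y`: `dist = wedge / (nx nx)`; `wedge > 0` (`dist_pos`, `wedge_eq`), so some `2 × 2` minor is `≠ 0`; outside the finite set where one of the finitely many nonzero minors or coordinates has `av ≠ 1`: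
   `wedge = 1`, `nx = 1`, `dist = 1`, `log = 0`.
`lift_le`: `Real.exp_log (nx_pos)`, `le_nv`.
`lift_injective`: `lift x = lift y`; `b := E.a x`: `lift x b = 1 = lift y b ≠ 0`, `z b x = z b y`, `E.sep h`.
`lift_smul'`, `evb_smul`: `hE.lift_smul h σ x j`, `hE.ev_smul h σ e (wb ..) x` + `inv_wb hE` + `hb`.
`abs_log_sub_le`: `Real.log_le_log`, `Real.log_mul`, `abs_le`.
-/
import Fermat.Agent.S17.Inst.Sec
import Fermat.Agent.S17.Loc.Dist

set_option autoImplicit false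

noncomputable section

namespace Fermat.Agent.S17.Inst

open AlgebraicCurve Fermat.Agent.S37 Fermat.Agent.S27 Fermat.Agent.S17.Loc Fermat.Agent.S17.Rat
  Fermat.Agent.S17.Glob MvPolynomial

variable {F : Type} [Field F] [Algebra Kb F] (𝒜 : AVFam) (E : PE Kb F)

theorem lmk_nonneg (S : Finset Kb) (M : ℕ) (v : Pl) : 0 ≤ lmk 𝒜 S M v :=
  Real.log_nonneg (MK.one_le_mk _ _ _)

/-- the bad places of a finite set of numbers -/
theorem finite_bad (T : Set Kb) (hT : T.Finite) :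
    {v : Pl | ∃ a ∈ T, a ≠ 0 ∧ 𝒜.av v a ≠ 1}.Finite := by
  have : {v : Pl | ∃ a ∈ T, a ≠ 0 ∧ 𝒜.av v a ≠ 1} ⊆
      ⋃ a ∈ T, {v : Pl | a ≠ 0 ∧ 𝒜.av v a ≠ 1} := by
    rintro v ⟨a, ha, h0, h1⟩
    simp only [Set.mem_iUnion]
    exact ⟨a, ha, h0, h1⟩
  refine (hT.biUnion fun a _ => ?_).subset this
  by_cases ha : a = 0
  · convert Set.finite_empty
    ext v
    simp [ha]
  · exact (𝒜.fin a ha).subset fun v hv => hv.2

theorem fs_lmk (S : Finset Kb) (M : ℕ) : FS (lmk 𝒜 S M) := by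
  refine ((finite_bad 𝒜 (S : Set Kb) S.finite_toSet).union (Set.finite_singleton none)).subset ?_
  intro v hv
  by_contra hcon
  apply hv
  simp only [Set.mem_union, Set.mem_ofPred_eq, Set.mem_singleton_iff, not_or, not_exists, not_and,
    not_not] at hcon
  obtain ⟨h1, h2⟩ := hcon
  obtain ⟨p, rfl⟩ := Option.ne_none_iff_exists'.mp h2
  unfold lmk MK.mk MK.base
  rw [MK.tau_of_na (𝒜.na p), Finset.prod_eq_one, one_mul, one_pow, Real.log_one]
  intro a ha
  by_cases ha0 : a = 0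
  · rw [ha0, map_zero]; simp
  · rw [h1 a (Finset.mem_coe.mpr ha) ha0]; simp

theorem fs_add {f g : Pl → ℝ} (hf : FS f) (hg : FS g) : FS (fun v => f v + g v) :=
  (hf.union hg).subset (Function.support_add f g)

theorem lnx_nonneg (h : IsFF Kb F) (v : Pl) (x : Place Kb F) : 0 ≤ lnx 𝒜 E v x :=
  Real.log_nonneg (E.one_le_nx h _ x)

theorem nx_eq_one (h : IsFF Kb F) (v : Pl) (x : Place Kb F)
    (hv : ∀ j, E.lift x j ≠ 0 → 𝒜.av v (E.lift x j) = 1) : E.nx (𝒜.av v) x = 1 := by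
  apply le_antisymm _ (E.one_le_nx h _ x)
  unfold PE.nx
  apply nv_le
  intro j
  by_cases hj : E.lift x j = 0
  · rw [hj, map_zero]; exact zero_le_one
  · rw [hv j hj]

theorem lnx_fs (h : IsFF Kb F) (x : Place Kb F) : FS (fun v => lnx 𝒜 E v x) := by
  refine (finite_bad 𝒜 (Set.range (E.lift x)) (Set.finite_range _)).subset ?_
  intro v hv
  by_contra hcon
  apply hv
  simp only [Set.mem_ofPred_eq, not_exists, not_and, not_not] at hcon
  show lnx 𝒜 E v x = 0
  unfold lnx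
  rw [nx_eq_one 𝒜 E h v x (fun j hj => hcon _ ⟨j, rfl⟩ hj), Real.log_one]

theorem llam_symm (v : Pl) (x y : Place Kb F) : llam 𝒜 E v x y = llam 𝒜 E v y x := by
  unfold llam
  rw [E.dist_comm]

theorem llam_fs (h : IsFF Kb F) {x y : Place Kb F} (hxy : x ≠ y) : FS (fun v => llam 𝒜 E v x y) := by
  let mn : Fin (E.r + 1) × Fin (E.r + 1) → Kb := fun p =>
    E.lift x p.1 * E.lift y p.2 - E.lift x p.2 * E.lift y p.1
  refine (finite_bad 𝒜 (Set.range (E.lift x) ∪ Set.range (E.lift y) ∪ Set.range mn)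
    (((Set.finite_range _).union (Set.finite_range _)).union (Set.finite_range _))).subset ?_
  intro v hv
  by_contra hcon
  apply hv
  simp only [Set.mem_ofPred_eq, not_exists, not_and, not_not] at hcon
  show llam 𝒜 E v x y = 0
  have h1 := nx_eq_one 𝒜 E h v x (fun j hj => hcon _ (Or.inl (Or.inl ⟨j, rfl⟩)) hj)
  have h2 := nx_eq_one 𝒜 E h v y (fun j hj => hcon _ (Or.inl (Or.inr ⟨j, rfl⟩)) hj)
  have hpos := E.dist_pos h (𝒜.av v) hxy
  have hw := E.wedge_eq h (𝒜.av v) x y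
  rw [h1, h2, mul_one, mul_one] at hw
  obtain ⟨j, k, hjk⟩ := E.exists_wedge_eq (𝒜.av v) x y
  have hne : mn (j, k) ≠ 0 := by
    intro h0
    have : E.wedge (𝒜.av v) x y = 0 := by
      rw [hjk]
      show 𝒜.av v (mn (j, k)) = 0
      rw [h0, map_zero]
    rw [hw] at this
    exact hpos.ne' this
  have h3 : 𝒜.av v (mn (j, k)) = 1 := hcon _ (Or.inr ⟨(j, k), rfl⟩) hne
  have h4 : E.dist (𝒜.av v) x y = 1 := by
    rw [← hw, hjk]; exact h3
  unfold llam
  rw [h4, Real.log_one, neg_zero]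

theorem lift_le (h : IsFF Kb F) (v : Pl) (x : Place Kb F) (j : Fin (E.r + 1)) :
    𝒜.av v (E.lift x j) ≤ Real.exp (lnx 𝒜 E v x) := by
  unfold lnx
  rw [Real.exp_log (E.nx_pos h _ x)]
  exact le_nv _ _ j

theorem lift_injective (h : IsFF Kb F) : Function.Injective E.lift := by
  intro x y hxy
  have h1 : E.lift x (E.a x) = 1 := E.lift_a h x
  have h2 : E.lift y (E.a x) = 1 := by rw [← hxy]; exact h1
  apply E.sep h (b := E.a x) (by rw [h1]; exact one_ne_zero) (by rw [h2]; exact one_ne_zero)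
  unfold PE.z
  rw [hxy]

theorem abs_log_sub_le {A B c c' : ℝ} (hA : 0 < A) (hB : 0 < B) (hc : 1 ≤ c) (hc' : 1 ≤ c')
    (h1 : A ≤ c * B) (h2 : B ≤ c' * A) : |Real.log A - Real.log B| ≤ Real.log c + Real.log c' := by
  have hc0 : 0 < c := lt_of_lt_of_le one_pos hc
  have hc0' : 0 < c' := lt_of_lt_of_le one_pos hc'
  have e1 := Real.log_le_log hA h1
  have e2 := Real.log_le_log hB h2
  rw [Real.log_mul hc0.ne' hB.ne'] at e1
  rw [Real.log_mul hc0'.ne' hA.ne'] at e2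
  have e3 := Real.log_nonneg hc
  have e4 := Real.log_nonneg hc'
  rw [abs_le]
  constructor <;> linarith

variable {E} {R : RS Kb F GQ}

theorem lift_smul' (h : IsFF Kb F) (hb : ∀ (σ : GQ) (c : Kb), SemilinearAut.baseAut (R.ρ σ) c = σ c)
    (hE : R.IsRat E) (σ : GQ) (x : Place Kb F) (j : Fin (E.r + 1)) :
    σ (E.lift x j) = E.lift (R.ρ σ • x) j := by
  rw [hE.lift_smul h σ x j, hb]

theorem evb_smul (h : IsFF Kb F) (hb : ∀ (σ : GQ) (c : Kb), SemilinearAut.baseAut (R.ρ σ) c = σ c)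
    (hE : R.IsRat E) (σ : GQ) (e : ℕ) (l : Fin (dW E e)) (x : Place Kb F) :
    σ (evb E e l x) = evb E e l (R.ρ σ • x) := by
  have h1 := hE.ev_smul h σ e (wb E e l) x
  rw [inv_wb hE e l σ, hb] at h1
  exact h1.symm

end Fermat.Agent.S17.Inst
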