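/-
S17 / INST, KEY [S17/I-DET]  (helper6).   Fields `det_ne`, `det` of `HtData` from Loc `alt` + `tri`.

`det`.  Fix `m, d ≤ m`.  UPPER: for every `Jc : Fin d → Fin (dW E m)`, `E.alt h m d` with `φ j = wb E m (Jc j)` (`nm_wb`: all norms are 1).
   LOWER: `E.tri h m d`.   `abs_log_sub_le` with `A = ⨆ Jc, av v (mnr ..)`, `B = ∏ i, nx (y i)^m * ∏_{i<j} dist (y i) (y j) > 0`.
`det_ne`: from the LOWER bound with `𝒜`-free absolute value: `B > 0` forces some minor `≠ 0`.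
-/
import Fermat.Agent.S17.Inst.Log
import Fermat.Agent.S17.Loc.Alt
import Fermat.Agent.S17.Loc.Tri

set_option autoImplicit false

noncomputable section

namespace Fermat.Agent.S17.Inst

open AlgebraicCurve Fermat.Agent.S37 Fermat.Agent.S27 Fermat.Agent.S17.Loc Fermat.Agent.S17.Rat
  Fermat.Agent.S17.Glob MvPolynomial

variable {F : Type} [Field F] [Algebra Kb F] (𝒜 : AVFam) (E : PE Kb F)

/-- the comparison quantity -/
def detB (v : AbsoluteValue Kb ℝ) (m : ℕ) {d : ℕ} (y : Fin d → Place Kb F) : ℝ :=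
  (∏ i, E.nx v (y i) ^ m) * ∏ i, ∏ j ∈ Finset.Ioi i, E.dist v (y i) (y j)

theorem detB_pos (h : IsFF Kb F) (v : AbsoluteValue Kb ℝ) (m : ℕ) {d : ℕ} (y : Fin d → Place Kb F)
    (hy : Function.Injective y) : 0 < detB E v m y := by
  unfold detB
  refine mul_pos (Finset.prod_pos fun i _ => pow_pos (E.nx_pos h v _) _)
    (Finset.prod_pos fun i _ => Finset.prod_pos fun j hj => E.dist_pos h v ?_)
  intro hij
  have := hy hij
  rw [Finset.mem_Ioi] at hj
  exact hj.ne this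

theorem det_upper (h : IsFF Kb F) (m d : ℕ) : ∃ (S : Finset Kb) (M : ℕ),
    ∀ (v : AbsoluteValue Kb ℝ) (y : Fin d → Place Kb F), Function.Injective y →
      ∀ Jc : Fin d → Fin (dW E m),
        v (SL.mnr (Matrix.of fun i l => evb E m l (y i)) Jc) ≤ MK.mk S M v * detB E v m y := by
  obtain ⟨S, M, hSM⟩ := alt E h m d
  refine ⟨S, M, fun v y hy Jc => ?_⟩
  have h1 := hSM v (fun j => wb E m (Jc j)) y (fun j => wb_mem E h m _) hy
  have h2 : (∏ j, E.nm v m (wb E m (Jc j))) = 1 :=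
    Finset.prod_eq_one fun j _ => nm_wb E h v m _
  rw [h2, one_mul] at h1
  exact h1

theorem det_lower (h : IsFF Kb F) (m d : ℕ) (hd : d ≤ m) : ∃ (S : Finset Kb) (M : ℕ),
    ∀ (v : AbsoluteValue Kb ℝ) (y : Fin d → Place Kb F),
      ∃ Jc : Fin d → Fin (dW E m),
        detB E v m y ≤ MK.mk S M v * v (SL.mnr (Matrix.of fun i l => evb E m l (y i)) Jc) := by
  obtain ⟨S, M, hSM⟩ := tri E h m d hd
  refine ⟨S, M, fun v y => ?_⟩
  obtain ⟨J, hJ, hle⟩ := hSM v y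
  refine ⟨fun l => (idx E m).symm ⟨J l, hJ l⟩, ?_⟩
  have h1 : SL.mnr (Matrix.of fun i l => evb E m l (y i)) (fun l => (idx E m).symm ⟨J l, hJ l⟩) =
      Matrix.det (Matrix.of fun i l => eval (E.lift (y i)) (monomial (J l) (1 : Kb))) := by
    unfold SL.mnr
    congr 1
    ext i l
    simp only [Matrix.submatrix_apply, Matrix.of_apply, id_eq]
    unfold evb wb
    rw [Equiv.apply_symm_apply]
    exact E.ev_aeval h (isHomogeneous_monomial _ ((E.isMB_B h m).1 _ (hJ l))) (y i)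
  rw [h1]
  exact hle

theorem det_ne (h : IsFF Kb F) (m d : ℕ) (hd : d ≤ m) (y : Fin d → Place Kb F) (hy : Function.Injective y) :
    ∃ Jc : Fin d → Fin (dW E m), SL.mnr (Matrix.of fun i l => evb E m l (y i)) Jc ≠ 0 := by
  classical
  obtain ⟨S, M, hSM⟩ := det_lower E h m d hd
  obtain ⟨Jc, hJc⟩ := hSM (AbsoluteValue.trivial) y
  refine ⟨Jc, fun h0 => ?_⟩
  rw [h0, map_zero, mul_zero] at hJc
  exact absurd (detB_pos E h _ m y hy) (not_lt.2 hJc)

theorem log_detB (h : IsFF Kb F) (v : Pl) (m : ℕ) {d : ℕ} (y : Fin d → Place Kb F)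
    (hy : Function.Injective y) :
    Real.log (detB E (𝒜.av v) m y) =
      m * ∑ i, lnx 𝒜 E v (y i) - ∑ i, ∑ j, (if i < j then llam 𝒜 E v (y i) (y j) else 0) := by
  have hd : ∀ i, ∀ j ∈ Finset.Ioi i, E.dist (𝒜.av v) (y i) (y j) ≠ 0 := by
    intro i j hj
    refine (E.dist_pos h _ ?_).ne'
    intro hij
    rw [Finset.mem_Ioi] at hj
    exact hj.ne (hy hij)
  unfold detB
  rw [Real.log_mul (Finset.prod_ne_zero_iff.2 fun i _ => pow_ne_zero _ (E.nx_pos h _ _).ne')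
    (Finset.prod_ne_zero_iff.2 fun i _ => Finset.prod_ne_zero_iff.2 (hd i)),
    Real.log_prod (fun i _ => pow_ne_zero _ (E.nx_pos h _ _).ne'),
    Real.log_prod (fun i _ => Finset.prod_ne_zero_iff.2 (hd i)), Finset.mul_sum, sub_eq_add_neg,
    ← Finset.sum_neg_distrib]
  congr 1
  · refine Finset.sum_congr rfl fun i _ => ?_
    rw [Real.log_pow]
    rfl
  · refine Finset.sum_congr rfl fun i _ => ?_
    rw [Real.log_prod (hd i), ← Finset.sum_neg_distrib, ← Finset.sum_filter_add_sum_filter_not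
      Finset.univ (fun j => i < j) (fun j => -(if i < j then llam 𝒜 E v (y i) (y j) else 0))]
    have h2 : ∑ j ∈ Finset.univ.filter (fun j => ¬ i < j),
        -(if i < j then llam 𝒜 E v (y i) (y j) else 0) = 0 := by
      refine Finset.sum_eq_zero fun j hj => ?_
      rw [Finset.mem_filter] at hj
      rw [if_neg hj.2, neg_zero]
    rw [h2, add_zero]
    have h3 : Finset.Ioi i = Finset.univ.filter (fun j => i < j) := by
      ext j
      simp
    rw [h3]
    refine Finset.sum_congr rfl fun j hj => ?_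
    rw [Finset.mem_filter] at hj
    rw [if_pos hj.2]
    unfold llam
    rw [neg_neg]

theorem det (h : IsFF Kb F) (m d : ℕ) (hd : d ≤ m) : ∃ γ : Pl → ℝ, FS γ ∧ ∀ (v : Pl) (y : Fin d → Place Kb F),
    Function.Injective y →
    |Real.log (⨆ Jc : Fin d → Fin (dW E m), 𝒜.av v (SL.mnr (Matrix.of fun i l => evb E m l (y i)) Jc))
      - m * ∑ i, lnx 𝒜 E v (y i) + ∑ i, ∑ j, (if i < j then llam 𝒜 E v (y i) (y j) else 0)| ≤ γ v := by
  obtain ⟨S1, M1, h1⟩ := det_upper E h m d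
  obtain ⟨S2, M2, h2⟩ := det_lower E h m d hd
  refine ⟨fun v => lmk 𝒜 S1 M1 v + lmk 𝒜 S2 M2 v, fs_add (fs_lmk 𝒜 S1 M1) (fs_lmk 𝒜 S2 M2), ?_⟩
  intro v y hy
  obtain ⟨Jc, hJc⟩ := h2 (𝒜.av v) y
  have hB := detB_pos E h (𝒜.av v) m y hy
  have hne : Nonempty (Fin d → Fin (dW E m)) := ⟨Jc⟩
  have hle : 𝒜.av v (SL.mnr (Matrix.of fun i l => evb E m l (y i)) Jc) ≤
      ⨆ Jc : Fin d → Fin (dW E m), 𝒜.av v (SL.mnr (Matrix.of fun i l => evb E m l (y i)) Jc) :=
    le_ciSup (f := fun Jc : Fin d → Fin (dW E m) =>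
      𝒜.av v (SL.mnr (Matrix.of fun i l => evb E m l (y i)) Jc)) (Set.finite_range _).bddAbove Jc
  have hBA : detB E (𝒜.av v) m y ≤ MK.mk S2 M2 (𝒜.av v) *
      ⨆ Jc : Fin d → Fin (dW E m), 𝒜.av v (SL.mnr (Matrix.of fun i l => evb E m l (y i)) Jc) :=
    hJc.trans (mul_le_mul_of_nonneg_left hle (MK.mk_pos _ _ _).le)
  have hA : 0 < ⨆ Jc : Fin d → Fin (dW E m),
      𝒜.av v (SL.mnr (Matrix.of fun i l => evb E m l (y i)) Jc) := by
    by_contra hcon
    have := mul_nonpos_of_nonneg_of_nonpos (MK.mk_pos S2 M2 (𝒜.av v)).le (not_lt.1 hcon)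
    linarith
  have hAB : (⨆ Jc : Fin d → Fin (dW E m),
      𝒜.av v (SL.mnr (Matrix.of fun i l => evb E m l (y i)) Jc)) ≤
      MK.mk S1 M1 (𝒜.av v) * detB E (𝒜.av v) m y := ciSup_le fun Jc => h1 (𝒜.av v) y hy Jc
  have key := abs_log_sub_le hA hB (MK.one_le_mk S1 M1 _) (MK.one_le_mk S2 M2 _) hAB hBA
  rw [log_detB 𝒜 E h v m y hy] at key
  have e : ∀ a b c : ℝ, a - b + c = a - (b - c) := fun a b c => by ring
  rw [e]
  exact key

end Fermat.Agent.S17.Inst
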