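/-
S17 / INST, KEY [S17/I-MS]  (~250 lines; Mathlib + Prelude `Divisor` + `IsFF.deg_eq_one` only).  Multisets of places versus effective divisors.

All proofs: `Multiset.induction_on` for `ofMS` (`ofMS (x ::ₘ T) = single x 1 + ofMS T` by `map_add`/`Multiset.map_cons, sum_cons`),
`Finsupp.count_toMultiset`, `Multiset.ext` (compare counts), `Int.toNat_of_nonneg`.
`exists_fin`: `T = Multiset.ofList T.toList`, `t i = T.toList.get (i.cast ..)`; or induction on `T` with `Fin.cons`.
-/
import Fermat.Agent.S17.Inst.Defs

set_option autoImplicit false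

noncomputable section

namespace Fermat.Agent.S17.Inst

open AlgebraicCurve Fermat.Agent.S37 Fermat.Agent.S27 Fermat.Agent.S17.Loc

variable {K F : Type*} [Field K] [Field F] [Algebra K F]

theorem ofMS_def (T : Multiset (Place K F)) :
    ofMS T = (T.map fun x => Finsupp.single x (1 : ℤ)).sum := rfl

theorem ofMS_cons (x : Place K F) (T : Multiset (Place K F)) :
    ofMS (x ::ₘ T) = Finsupp.single x (1 : ℤ) + ofMS T := by
  rw [ofMS_def, ofMS_def, Multiset.map_cons, Multiset.sum_cons]

theorem ofMS_singleton (x : Place K F) : ofMS ({x} : Multiset (Place K F)) = Finsupp.single x (1 : ℤ) := by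
  rw [ofMS_def, Multiset.map_singleton, Multiset.sum_singleton]

open Classical in
theorem ofMS_apply (T : Multiset (Place K F)) (x : Place K F) : ofMS T x = (T.count x : ℤ) := by
  induction T using Multiset.induction_on with
  | empty => simp
  | cons a T ih =>
    rw [ofMS_cons, Finsupp.add_apply, ih, Multiset.count_cons, Finsupp.single_apply]
    by_cases hax : a = x
    · subst hax; simp; ring
    · rw [if_neg hax, if_neg (fun h => hax h.symm)]; simp

theorem ofMS_nonneg (T : Multiset (Place K F)) : 0 ≤ ofMS T := by
  classical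
  intro x
  rw [ofMS_apply]
  simp

open Classical in
theorem count_toMS (D : Divisor K F) (x : Place K F) : (toMS D).count x = (D x).toNat := by
  unfold toMS
  rw [Finsupp.count_toMultiset, Finsupp.mapRange_apply]

theorem mem_toMS (D : Divisor K F) (x : Place K F) : x ∈ toMS D ↔ 0 < D x := by
  classical
  rw [← Multiset.count_pos, count_toMS]
  omega

theorem ofMS_toMS {D : Divisor K F} (hD : 0 ≤ D) : ofMS (toMS D) = D := by
  classical
  ext x
  rw [ofMS_apply, count_toMS]
  exact Int.toNat_of_nonneg (hD x)

theorem toMS_ofMS (T : Multiset (Place K F)) : toMS (ofMS T) = T := by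
  classical
  ext x
  rw [count_toMS, ofMS_apply]
  simp

theorem toMS_add {D D' : Divisor K F} (hD : 0 ≤ D) (hD' : 0 ≤ D') : toMS (D + D') = toMS D + toMS D' := by
  classical
  ext x
  rw [Multiset.count_add, count_toMS, count_toMS, count_toMS, Finsupp.add_apply]
  exact Int.toNat_add (hD x) (hD' x)

theorem toMS_single (x : Place K F) (n : ℕ) : toMS (Finsupp.single x (n : ℤ)) = n • ({x} : Multiset (Place K F)) := by
  classical
  ext y
  rw [count_toMS, Multiset.count_nsmul, Multiset.count_singleton, Finsupp.single_apply]
  by_cases hxy : x = y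
  · subst hxy; simp
  · rw [if_neg hxy, if_neg (fun h => hxy h.symm)]; simp

theorem degree_ofMS [IsAlgClosed K] [CharZero K] (h : IsFF K F) (T : Multiset (Place K F)) : Divisor.degree (ofMS T) = (T.card : ℤ) := by
  induction T using Multiset.induction_on with
  | empty => simp
  | cons a T ih =>
    rw [ofMS_cons, map_add, ih, Divisor.degree_single, h.deg_eq_one, Multiset.card_cons]
    push_cast
    ring

theorem card_toMS [IsAlgClosed K] [CharZero K] (h : IsFF K F) {D : Divisor K F} (hD : 0 ≤ D) : ((toMS D).card : ℤ) = Divisor.degree D := by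
  rw [← degree_ofMS h, ofMS_toMS hD]

theorem ofMS_map_smul (g : SemilinearAut K F) (T : Multiset (Place K F)) :
    ofMS (T.map fun x => g • x) = g • ofMS T := by
  induction T using Multiset.induction_on with
  | empty => simp
  | cons a T ih =>
    rw [Multiset.map_cons, ofMS_cons, ofMS_cons, ih, smul_add, SemilinearAut.smul_single]

theorem toMS_smul (g : SemilinearAut K F) (D : Divisor K F) :
    toMS (g • D) = (toMS D).map fun x => g • x := by
  classical
  ext x
  rw [count_toMS, SemilinearAut.divisor_smul_apply]
  have hinj : Function.Injective (fun x : Place K F => g • x) := MulAction.injective g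
  have : x = (fun x : Place K F => g • x) (g⁻¹ • x) := by simp
  rw [this, Multiset.count_map_eq_count' _ _ hinj, count_toMS]
  simp

theorem nodup_toMS_iff {D : Divisor K F} : (toMS D).Nodup ↔ ∀ x, D x ≤ 1 := by
  classical
  rw [Multiset.nodup_iff_count_le_one]
  refine forall_congr' fun x => ?_
  rw [count_toMS]
  omega

/-- enumeration of a multiset -/
theorem exists_fin (T : Multiset (Place K F)) {n : ℕ} (hn : T.card = n) :
    ∃ t : Fin n → Place K F, T = Finset.univ.val.map t := by
  obtain ⟨l, rfl⟩ : ∃ l : List (Place K F), T = (l : Multiset (Place K F)) :=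
    ⟨T.toList, (Multiset.coe_toList T).symm⟩
  rw [Multiset.coe_card] at hn
  subst hn
  refine ⟨fun i => l.get i, ?_⟩
  rw [Fin.univ_val_map, List.ofFn_get]

theorem sumD_eq_ofMS {n : ℕ} (t : Fin n → Place K F) : PE.sumD t = ofMS (Finset.univ.val.map t) := by
  rw [ofMS_def, Multiset.map_map]
  rfl

theorem clD_apply (oo : Place K F) (T : Multiset (Place K F)) :
    clD oo T = ofMS T - Finsupp.single oo (T.card : ℤ) := by
  unfold clD
  rw [AddMonoidHom.sub_apply, AddMonoidHom.comp_apply, multiplesHom_apply]
  congr 1
  rw [Finsupp.smul_single]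
  simp

theorem clD_mem [IsAlgClosed K] [CharZero K] (h : IsFF K F) (oo : Place K F) (T : Multiset (Place K F)) :
    clD oo T ∈ Divisor.degZero (K := K) (F := F) := by
  rw [Divisor.mem_degZero, clD_apply, map_sub, degree_ofMS h, Divisor.degree_single, h.deg_eq_one]
  simp

end Fermat.Agent.S17.Inst
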