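/-
S17 / INST, KEY [S17/I-ZERO]  (~300 lines; uses the STATEMENTS of Inst/MS, Inst/Sec, Loc/Ev, Rat/Defs).  Zero divisors of rational sections.

`Zd_apply`: `AR.dv_apply h (sec_ne_zero ..)`.   `Zd_nonneg`: `sec_mem` + `mem_riemannRochSpace_iff` (`Finsupp.le_def`).
`Zs_card`: `card_toMS h Zd_nonneg`, `degree (dv) = 0` (`AR.degree_dv`), `E.degree_D`.
`mem_Zs`: `mem_toMS`, `← ev_sec`, `E.ev_eq_zero_iff h (sec_mem ..) x`, and  `u ∈ L(D e - x) ↔ 0 < ord_x u + D e x`  for `u ∈ L(D e)`, `u ≠ 0` (`mem_riemannRochSpace_iff`; at `v ≠ x` nothing changes).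
`Zs_stab`: `Stab` unfolds to `(Zs).map (σ • ·) = Zs`; `σ • x = R.ρ σ • x` (`smul_PX`, rfl); `← toMS_smul`; `R.ρ σ • Zd = Zd` by `smul_add`, `R.stab_dv h (inv_sec hE ..)`, `stab_single hE.oo`.
`exists_one`: `exists_sec_of_inv` for `u = 1 = E.f 0 ∈ W 1`, `Inv.one`; `one ≠ 0` since `sec 0 = 0 ≠ 1`; `Zd = dv 1 + D 1 = D 1 = single oo n0` (`dv_apply`, `ord_one`), `toMS_single`.
`exists_pa`: `u_a = E.f (last) - algebraMap (a : Kb)` ∈ W 1, invariant, `≠ 0` (pole at oo: `E.f_last`, `n0 > 0`); if `x` is a zero of both `u_a`, `u_b`: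
   `x ≠ oo` because `ord_oo u_a = - n0` so `Zd oo = 0`; for `x ≠ oo`: `D 1 x = 0`, `0 < ord_x u_a`, `0 < ord_x u_b` ⇒ `Van x (u_a - u_b)`, a nonzero constant (`valAux_const`): contradiction.   (`Multiset.disjoint_left`.)
`Zs_mul`: `Zd (e+e') u = Zd e s + Zd e' w` (`Finsupp.ext`, `Zd_apply`, `ord_mul`, `D_add`), `toMS_add`.
-/
import Fermat.Agent.S17.Inst.MS
import Fermat.Agent.S17.Inst.Sec

set_option autoImplicit false

noncomputable section

namespace Fermat.Agent.S17.Inst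

open AlgebraicCurve Fermat.Agent.S37 Fermat.Agent.S27 Fermat.Agent.S17.Loc Fermat.Agent.S17.Rat
  Fermat.Agent.S17.Glob MvPolynomial

variable {F : Type} [Field F] [Algebra Kb F] (h : IsFF Kb F) (E : PE Kb F)

theorem Zd_apply (e : ℕ) {s : Fin (dW E e) → ℚ} (hs : s ≠ 0) (x : Place Kb F) :
    Zd h E e s x = x.ord (sec E e s) + E.D e x := by
  unfold Zd
  rw [Finsupp.add_apply, AR.dv_apply h (sec_ne_zero E h e hs)]

theorem Zd_nonneg (e : ℕ) {s : Fin (dW E e) → ℚ} (hs : s ≠ 0) : 0 ≤ Zd h E e s := by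
  intro x
  rw [Zd_apply h E e hs]
  have := sec_mem E h e s
  unfold PE.W at this
  rw [mem_riemannRochSpace_iff] at this
  have h1 := (this x).resolve_left (sec_ne_zero E h e hs)
  simp only [Finsupp.coe_zero, Pi.zero_apply]
  omega

theorem ofMS_Zs (e : ℕ) {s : Fin (dW E e) → ℚ} (hs : s ≠ 0) : ofMS (Zs h E e s) = Zd h E e s :=
  ofMS_toMS (Zd_nonneg h E e hs)

theorem Zs_card (e : ℕ) {s : Fin (dW E e) → ℚ} (hs : s ≠ 0) : (Zs h E e s).card = e * E.n0 := by
  have h1 := card_toMS h (Zd_nonneg h E e hs)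
  unfold Zd at h1
  rw [map_add, AR.degree_dv, zero_add, E.degree_D h] at h1
  exact_mod_cast h1

theorem mem_Zs (e : ℕ) {s : Fin (dW E e) → ℚ} (hs : s ≠ 0) (x : Place Kb F) :
    x ∈ Zs h E e s ↔ ∑ l, algebraMap ℚ Kb (s l) * evb E e l x = 0 := by
  classical
  rw [← ev_sec E h, E.ev_eq_zero_iff h (sec_mem E h e s) x]
  unfold Zs
  rw [mem_toMS, Zd_apply h E e hs, mem_riemannRochSpace_iff]
  have hne := sec_ne_zero E h e hs
  have hmem := sec_mem E h e s
  unfold PE.W at hmem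
  rw [mem_riemannRochSpace_iff] at hmem
  constructor
  · intro hpos v
    right
    have h1 := (hmem v).resolve_left hne
    by_cases hv : v = x
    · subst hv
      rw [Finsupp.sub_apply, Finsupp.single_eq_same]
      omega
    · rw [Finsupp.sub_apply, Finsupp.single_eq_of_ne hv]
      omega
  · intro hall
    have h1 := (hall x).resolve_left hne
    rw [Finsupp.sub_apply, Finsupp.single_eq_same] at h1
    omega

theorem Zs_mul (e e' : ℕ) {s : Fin (dW E e) → ℚ} {w : Fin (dW E e') → ℚ} {u : Fin (dW E (e + e')) → ℚ}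
    (hs : s ≠ 0) (hw : w ≠ 0) (hu : sec E (e + e') u = sec E e s * sec E e' w) :
    u ≠ 0 ∧ Zs h E (e + e') u = Zs h E e s + Zs h E e' w := by
  have hu0 : u ≠ 0 := by
    rintro rfl
    rw [sec_zero] at hu
    exact mul_ne_zero (sec_ne_zero E h e hs) (sec_ne_zero E h e' hw) hu.symm
  refine ⟨hu0, ?_⟩
  unfold Zs
  rw [← toMS_add (Zd_nonneg h E e hs) (Zd_nonneg h E e' hw)]
  congr 1
  ext x
  rw [Finsupp.add_apply, Zd_apply h E _ hu0, Zd_apply h E _ hs, Zd_apply h E _ hw, hu,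
    Place.ord_mul _ (sec_ne_zero E h e hs) (sec_ne_zero E h e' hw), E.D_add, Finsupp.add_apply]
  ring

variable {E} {R : RS Kb F GQ}

theorem Zs_stab (hE : R.IsRat E) (e : ℕ) {s : Fin (dW E e) → ℚ} (hs : s ≠ 0) :
    Glob.Stab (X := PX R) (Zs h E e s) := by
  intro σ
  have h1 : R.ρ σ • Zd h E e s = Zd h E e s := by
    unfold Zd
    rw [smul_add, R.stab_dv h (inv_sec hE e s) σ]
    congr 1
    exact RS.stab_single hE.oo _ σ
  have h2 := toMS_smul (R.ρ σ) (Zd h E e s)
  rw [h1] at h2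
  exact h2.symm

theorem exists_one (hE : R.IsRat E) : ∃ one : Fin (dW E 1) → ℚ, one ≠ 0 ∧
    Zs h E 1 one = E.n0 • ({E.oo} : Multiset (Place Kb F)) := by
  have h1 : (1 : F) ∈ E.W 1 := by rw [← E.f_zero]; exact E.f_mem 0
  obtain ⟨one, hone⟩ := exists_sec_of_inv h hE 1 h1 RS.Inv.one
  have hne : one ≠ 0 := by
    rintro rfl
    rw [sec_zero] at hone
    exact zero_ne_one hone
  refine ⟨one, hne, ?_⟩
  unfold Zs
  rw [← toMS_single]
  congr 1
  ext x
  rw [Zd_apply h E 1 hne, hone, Place.ord_one, zero_add]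
  unfold PE.D
  rw [one_mul]

theorem exists_pa (hE : R.IsRat E) : ∃ pa : ℕ → Fin (dW E 1) → ℚ, (∀ a, pa a ≠ 0) ∧
    ∀ a b, a ≠ b → Disjoint (Zs h E 1 (pa a)) (Zs h E 1 (pa b)) := by
  classical
  let u : ℕ → F := fun a => E.f (Fin.last E.r) - algebraMap Kb F ((a : ℚ) : Kb)
  have hconst : ∀ c : Kb, algebraMap Kb F c ∈ E.W 1 := by
    intro c
    have h1 : (1 : F) ∈ E.W 1 := by rw [← E.f_zero]; exact E.f_mem 0
    have := Submodule.smul_mem (E.W 1) c h1
    rwa [Algebra.smul_def, mul_one] at this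
  have hu : ∀ a, u a ∈ E.W 1 := fun a => Submodule.sub_mem _ (E.f_mem _) (hconst _)
  have hinv : ∀ a, R.Inv (u a) := fun a => (hE.f _).sub (RS.inv_ratCast _)
  choose pa hpa using fun a => exists_sec_of_inv h hE 1 (hu a) (hinv a)
  have hn0 : 0 < E.n0 := E.n0_pos
  have hflast : E.oo.ord (E.f (Fin.last E.r)) = -(E.n0 : ℤ) := E.f_last
  -- `u a` is not regular at oo
  have hnreg : ∀ a, ¬ Reg E.oo (u a) := by
    intro a hreg
    have h1 : Reg E.oo (E.f (Fin.last E.r)) := by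
      have := hreg.add (reg_algebraMap E.oo ((a : ℚ) : Kb))
      simpa [u] using this
    rw [reg_iff, hflast] at h1
    omega
  have hu0 : ∀ a, u a ≠ 0 := by
    intro a h0
    apply hnreg a
    rw [h0, reg_iff, Place.ord_zero]
  have hpa0 : ∀ a, pa a ≠ 0 := by
    intro a h0
    have := hpa a
    rw [h0, sec_zero] at this
    exact hu0 a this.symm
  refine ⟨pa, hpa0, fun a b hab => ?_⟩
  rw [Multiset.disjoint_left]
  intro x hxa hxb
  unfold Zs at hxa hxb
  rw [mem_toMS, Zd_apply h E 1 (hpa0 _), hpa] at hxa hxb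
  by_cases hx : x = E.oo
  · subst hx
    -- ord_oo (u a) = - n0
    have hD : E.D 1 E.oo = (E.n0 : ℤ) := by
      unfold PE.D; rw [Finsupp.single_eq_same, one_mul]
    rw [hD] at hxa
    -- then f_last = u a + const has ord > -n0 : contradiction
    have hL : ∀ y : F, y ∈ E.W 1 → y ≠ 0 → 0 < E.oo.ord y + (E.n0 : ℤ) →
        y ∈ riemannRochSpace (Finsupp.single E.oo ((E.n0 : ℤ) - 1) : Divisor Kb F) := by
      intro y hy hy0 hpos
      unfold PE.W at hy
      rw [mem_riemannRochSpace_iff] at hy ⊢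
      intro v
      right
      have h1 := (hy v).resolve_left hy0
      by_cases hv : v = E.oo
      · subst hv
        rw [Finsupp.single_eq_same]
        omega
      · rw [Finsupp.single_eq_of_ne hv]
        have hDv : E.D 1 v = 0 := by
          unfold PE.D; rw [Finsupp.single_eq_of_ne hv]
        rw [hDv] at h1
        exact h1
    have h1 := hL (u a) (hu a) (hu0 a) hxa
    have h2 : algebraMap Kb F ((a : ℚ) : Kb) ∈
        riemannRochSpace (Finsupp.single E.oo ((E.n0 : ℤ) - 1) : Divisor Kb F) := by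
      by_cases hc : algebraMap Kb F ((a : ℚ) : Kb) = 0
      · rw [hc]; exact zero_mem _
      · apply hL _ (hconst _) hc
        have := (reg_iff (P := E.oo)).mp (reg_algebraMap E.oo ((a : ℚ) : Kb))
        omega
    have h3 := Submodule.add_mem _ h1 h2
    have e1 : u a + algebraMap Kb F ((a : ℚ) : Kb) = E.f (Fin.last E.r) := by
      simp only [u]; ring
    rw [e1, mem_riemannRochSpace_iff] at h3
    have h4 := (h3 E.oo).resolve_left (E.f_ne_zero _)
    rw [Finsupp.single_eq_same, hflast] at h4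
    omega
  · have hD : E.D 1 x = 0 := by
      unfold PE.D; rw [Finsupp.single_eq_of_ne hx]
    rw [hD, add_zero] at hxa hxb
    have h1 : Van x (u a) := Or.inr hxa
    have h2 : Van x (u b) := Or.inr hxb
    have h3 := valAux_van_sub h2 h1
    have e1 : u b - u a = algebraMap Kb F (((a : ℚ) : Kb) - ((b : ℚ) : Kb)) := by
      simp only [u, map_sub]; ring
    rw [e1] at h3
    have h4 := valAux_const h3
    apply hab
    have h5 : ((a : ℚ) : Kb) = ((b : ℚ) : Kb) := sub_eq_zero.mp h4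
    exact_mod_cast h5

end Fermat.Agent.S17.Inst
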