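/-
S17 / INST, KEY [S17/I-E1]  (~300 lines; uses the STATEMENTS of Loc (schw, e1_lower, mult_upper: add `import Fermat.Agent.S17.Loc.Main` (or Schw/E1) when landed), Inst/MS, Inst/Sec, Inst/Zero, Inst/Log).

`e1`.  Fix `e`, `n := e * E.n0`.  LOC gives `(S₁,M₁)` from `E.schw h n e` and `(S₂,M₂)` from `E.e1_lower h e`.   `γ v := lmk 𝒜 S₁ M₁ v + lmk 𝒜 S₂ M₂ v` (`fs_add`, `fs_lmk`).
 Given `v, s ≠ 0, x ∉ Zs`: `u := sec E e s`; `t : Fin n → Place` with `Zs h E e s = univ.val.map t` (`exists_fin`, `Zs_card`); `sumD t = ofMS (Zs) = Zd` (`sumD_eq_ofMS`, `ofMS_Zs`), so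
   `∀ y, y.ord u + E.D e y = sumD t y` (`Zd_apply`) and `u ∈ L(E.D e - sumD t)` (`mem_riemannRochSpace_iff`).
 A := `av v (E.ev e u x)` (`= av v (∑ ..)` by `ev_sec`), `> 0` since `x ∉ Zs` (`mem_Zs`).   B := `nm * nx^e * ∏ i, dist x (t i)`, `> 0` (`nm_pos`, `nx_pos`, `dist_pos` since `x ≠ t i` because `t i ∈ Zs`).
 `abs_log_sub_le` gives `|log A - log B| ≤ γ v`;  `log B = ns 𝒜 v s + e * lnx + ∑ i, log (dist x (t i))` (`Real.log_mul`, `Real.log_pow`, `Real.log_prod`, `nm_sec`), and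
 `((Zs).map (llam x)).sum = ∑ i, - log (dist x (t i))` (`Multiset.map_map`, `Finset.sum` = `Multiset.sum` of `univ.val.map`).
`mult`.  `E.mult_upper h e e'` gives `(S,M)`, `γ := lmk 𝒜 S M`; `nm_sec` three times, `Real.log_le_log`, `Real.log_mul` (the sups are `> 0` because `s, w ≠ 0`: `nm_pos` + `sec_ne_zero`).
-/
import Fermat.Agent.S17.Inst.Zero
import Fermat.Agent.S17.Inst.Log
import Fermat.Agent.S17.Loc.E1

set_option autoImplicit false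

noncomputable section

namespace Fermat.Agent.S17.Inst

open AlgebraicCurve Fermat.Agent.S37 Fermat.Agent.S27 Fermat.Agent.S17.Loc Fermat.Agent.S17.Rat
  Fermat.Agent.S17.Glob MvPolynomial

variable {F : Type} [Field F] [Algebra Kb F] (𝒜 : AVFam) (E : PE Kb F)

theorem ns_eq (h : IsFF Kb F) (v : Pl) (e : ℕ) (s : Fin (dW E e) → ℚ) :
    ns 𝒜 v s = Real.log (E.nm (𝒜.av v) e (sec E e s)) := by
  rw [nm_sec E h]
  rfl

theorem e1 (h : IsFF Kb F) (e : ℕ) : ∃ γ : Pl → ℝ, FS γ ∧ ∀ (v : Pl) (s : Fin (dW E e) → ℚ) (x : Place Kb F), s ≠ 0 →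
    x ∉ Zs h E e s →
    |Real.log (𝒜.av v (∑ l, algebraMap ℚ Kb (s l) * evb E e l x)) - ns 𝒜 v s - e * lnx 𝒜 E v x
      + ((Zs h E e s).map (fun t => llam 𝒜 E v x t)).sum| ≤ γ v := by
  obtain ⟨S₁, M₁, H₁⟩ := e1_upper E h e
  obtain ⟨S₂, M₂, H₂⟩ := e1_lower E h e
  refine ⟨fun v => lmk 𝒜 S₁ M₁ v + lmk 𝒜 S₂ M₂ v, fs_add (fs_lmk 𝒜 S₁ M₁) (fs_lmk 𝒜 S₂ M₂), ?_⟩
  intro v s x hs hx
  obtain ⟨t, ht⟩ := exists_fin (Zs h E e s) (Zs_card h E e hs)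
  have hu := sec_mem E h e s
  have hu0 := sec_ne_zero E h e hs
  have hdiv : ∀ y : Place Kb F, y.ord (sec E e s) + E.D e y = PE.sumD t y := by
    intro y
    rw [sumD_eq_ofMS, ← ht, ofMS_Zs h E e hs, Zd_apply h E e hs]
  have hxt : ∀ i, x ≠ t i := by
    intro i hcon
    apply hx
    rw [ht, hcon]
    exact Multiset.mem_map_of_mem t (Finset.mem_univ_val i)
  have hA : 0 < 𝒜.av v (E.ev e (sec E e s) x) := by
    rw [AbsoluteValue.pos_iff, ev_sec E h]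
    intro h0
    exact hx ((mem_Zs h E e hs x).mpr h0)
  have hnm : 0 < E.nm (𝒜.av v) e (sec E e s) := E.nm_pos h _ hu hu0
  have hnx : 0 < E.nx (𝒜.av v) x := E.nx_pos h _ x
  have hd : ∀ i, 0 < E.dist (𝒜.av v) x (t i) := fun i => E.dist_pos h _ (hxt i)
  have hprod : 0 < ∏ i, E.dist (𝒜.av v) x (t i) := Finset.prod_pos fun i _ => hd i
  have hB : 0 < E.nm (𝒜.av v) e (sec E e s) * E.nx (𝒜.av v) x ^ e * ∏ i, E.dist (𝒜.av v) x (t i) :=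
    mul_pos (mul_pos hnm (pow_pos hnx e)) hprod
  have key := abs_log_sub_le hA hB (MK.one_le_mk S₁ M₁ (𝒜.av v)) (MK.one_le_mk S₂ M₂ (𝒜.av v))
    (H₁ (𝒜.av v) _ t x hu hu0 hdiv) (H₂ (𝒜.av v) _ t x hu hu0 hdiv)
  have hlogB : Real.log (E.nm (𝒜.av v) e (sec E e s) * E.nx (𝒜.av v) x ^ e *
      ∏ i, E.dist (𝒜.av v) x (t i)) = ns 𝒜 v s + e * lnx 𝒜 E v x
        - ((Zs h E e s).map (fun t => llam 𝒜 E v x t)).sum := by
    rw [Real.log_mul (mul_pos hnm (pow_pos hnx e)).ne' hprod.ne',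
      Real.log_mul hnm.ne' (pow_pos hnx e).ne', Real.log_pow, Real.log_prod (fun i _ => (hd i).ne'),
      ← ns_eq 𝒜 E h]
    have : ((Zs h E e s).map (fun t => llam 𝒜 E v x t)).sum
        = ∑ i, - Real.log (E.dist (𝒜.av v) x (t i)) := by
      rw [ht, Multiset.map_map]
      rfl
    rw [this, Finset.sum_neg_distrib]
    unfold lnx
    ring
  rw [hlogB, ev_sec E h] at key
  have e2 : Real.log (𝒜.av v (∑ l, algebraMap ℚ Kb (s l) * evb E e l x)) - ns 𝒜 v s - e * lnx 𝒜 E v x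
      + ((Zs h E e s).map (fun t => llam 𝒜 E v x t)).sum
      = Real.log (𝒜.av v (∑ l, algebraMap ℚ Kb (s l) * evb E e l x)) - (ns 𝒜 v s + e * lnx 𝒜 E v x
        - ((Zs h E e s).map (fun t => llam 𝒜 E v x t)).sum) := by ring
  rw [e2]
  exact key

theorem mult (h : IsFF Kb F) (e e' : ℕ) : ∃ γ : Pl → ℝ, FS γ ∧ ∀ (v : Pl) (s : Fin (dW E e) → ℚ)
    (w : Fin (dW E e') → ℚ) (u : Fin (dW E (e + e')) → ℚ), s ≠ 0 → w ≠ 0 →
    sec E (e + e') u = sec E e s * sec E e' w → ns 𝒜 v u ≤ ns 𝒜 v s + ns 𝒜 v w + γ v := by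
  obtain ⟨S, M, H⟩ := E.mult_upper h e e'
  refine ⟨lmk 𝒜 S M, fs_lmk 𝒜 S M, fun v s w u hs hw hu => ?_⟩
  have hu0 := (Zs_mul h E e e' hs hw hu).1
  rw [ns_eq 𝒜 E h, ns_eq 𝒜 E h, ns_eq 𝒜 E h]
  have h1 := H (𝒜.av v) _ _ (sec_mem E h e s) (sec_mem E h e' w)
  rw [← hu] at h1
  have p1 := E.nm_pos h (𝒜.av v) (sec_mem E h e s) (sec_ne_zero E h e hs)
  have p2 := E.nm_pos h (𝒜.av v) (sec_mem E h e' w) (sec_ne_zero E h e' hw)
  have p3 := E.nm_pos h (𝒜.av v) (sec_mem E h (e + e') u) (sec_ne_zero E h _ hu0)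
  have h2 := Real.log_le_log p3 h1
  rw [Real.log_mul (MK.mk_pos _ _ _).ne' (mul_pos p1 p2).ne', Real.log_mul p1.ne' p2.ne'] at h2
  unfold lmk
  linarith

end Fermat.Agent.S17.Inst
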