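/-
S17 / INST, KEY [S17/I-CL]  (~250 lines; uses the STATEMENTS of Inst/MS, Inst/Zero, Rat/Pencil (exists_rep)).  Classes.

`cl_apply`: rfl / `Pic0.mk`.    `cl_oo`: `clD oo {oo} = single oo 1 - single oo 1 = 0` (`clD_apply`, `ofMS_singleton`, `Multiset.card_singleton`).
`cl_Zs`: `clD oo (Zs) = Zd - single oo (e n0) = dv h (sec s)` (`ofMS_Zs`, `Zs_card`, `E.D`), principal: `QuotientAddGroup.eq_zero_iff`, `AddSubgroup.mem_addSubgroupOf`, `Divisor.mem_principal`, `⟨sec s, sec_ne_zero, dv_apply⟩`.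
`cl_eq_iff`: `cl T1 = cl T2 ↔ ∃ φ ≠ 0, ∀ x, ofMS T1 x - ofMS T2 x - (card T1 - card T2) * (single oo 1) x = ord_x φ` (`QuotientAddGroup.eq`, principal).
`rep`: `R.exists_rep h E.c0 (E.hc0 with casts) E.oo hE.oo E.n0 (c0 + 2 ≤ n0) (P ∪ {oo}) c (hΓ)` gives `Y : Divisor` with values in `{0,1}`; take the Finset `Y.support`;
   `Y.support.val = toMS Y` (`Multiset.ext`, `count_toMS`, `Multiset.count_eq_of_nodup`) ; `Stab` from `R.Stab Y` (`toMS_smul`); card `= n0` from `card_toMS` + degree (`Y - single oo n0 ∈ degZero`);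
   `cl = c`: `clD oo (toMS Y) = Y - single oo n0` (`ofMS_toMS`).
-/
import Fermat.Agent.S17.Inst.Zero

set_option autoImplicit false

noncomputable section

namespace Fermat.Agent.S17.Inst

open AlgebraicCurve Fermat.Agent.S37 Fermat.Agent.S27 Fermat.Agent.S17.Loc Fermat.Agent.S17.Rat
  Fermat.Agent.S17.Glob MvPolynomial

variable {F : Type} [Field F] [Algebra Kb F] (h : IsFF Kb F)

/-- `T ↦ [T - (card T) oo]` -/
def cl (oo : Place Kb F) : Multiset (Place Kb F) →+ Pic0 Kb F :=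
  (QuotientAddGroup.mk' _).comp ((clD oo).codRestrict (Divisor.degZero (K := Kb) (F := F)) (clD_mem h oo))

theorem cl_apply (oo : Place Kb F) (T : Multiset (Place Kb F)) :
    cl h oo T = Pic0.mk ⟨clD oo T, clD_mem h oo T⟩ := rfl

theorem cl_oo (oo : Place Kb F) : cl h oo {oo} = 0 := by
  rw [cl_apply]
  have : (⟨clD oo {oo}, clD_mem h oo {oo}⟩ : Divisor.degZero (K := Kb) (F := F)) = 0 := by
    apply Subtype.ext
    show clD oo {oo} = 0
    rw [clD_apply, ofMS_singleton, Multiset.card_singleton]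
    simp
  rw [this]
  rfl

theorem cl_eq_iff (oo : Place Kb F) (T1 T2 : Multiset (Place Kb F)) :
    cl h oo T1 = cl h oo T2 ↔ ∃ φ : F, φ ≠ 0 ∧ ∀ x : Place Kb F, x.ord φ = clD oo T1 x - clD oo T2 x := by
  rw [eq_comm, cl_apply, cl_apply]
  unfold Pic0.mk
  rw [QuotientAddGroup.eq, AddSubgroup.mem_addSubgroupOf]
  have h5 : ((-(⟨clD oo T2, clD_mem h oo T2⟩ : Divisor.degZero (K := Kb) (F := F)) +
      ⟨clD oo T1, clD_mem h oo T1⟩ : Divisor.degZero (K := Kb) (F := F)) : Divisor Kb F) =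
      -clD oo T2 + clD oo T1 := rfl
  rw [h5]
  constructor
  · rintro ⟨f, hf, hD⟩
    refine ⟨f, hf, fun x => ?_⟩
    rw [← hD x, Finsupp.add_apply, Finsupp.neg_apply]
    ring
  · rintro ⟨f, hf, hD⟩
    refine ⟨f, hf, fun x => ?_⟩
    rw [hD x, Finsupp.add_apply, Finsupp.neg_apply]
    ring

variable (E : PE Kb F)

theorem cl_Zs (e : ℕ) {s : Fin (dW E e) → ℚ} (hs : s ≠ 0) : cl h E.oo (Zs h E e s) = 0 := by
  rw [cl_apply]
  unfold Pic0.mk
  rw [QuotientAddGroup.eq_zero_iff, AddSubgroup.mem_addSubgroupOf]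
  show clD E.oo (Zs h E e s) ∈ Divisor.principal (K := Kb) (F := F)
  have h1 : clD E.oo (Zs h E e s) = AR.dv h (sec E e s) := by
    rw [clD_apply, ofMS_Zs h E e hs, Zs_card h E e hs]
    unfold Zd PE.D
    abel
  rw [h1]
  exact ⟨sec E e s, sec_ne_zero E h e hs, fun v => AR.dv_apply h (sec_ne_zero E h e hs) v⟩

variable {E} {R : RS Kb F GQ}

theorem rep (hE : R.IsRat E) (c : Pic0 Kb F) (hc : ∀ σ : GQ, R.ρ σ • c = c) (P : Finset (Place Kb F)) :
    ∃ Y : Finset (Place Kb F), Glob.Stab (X := PX R) Y.val ∧ Y.card = E.n0 ∧ E.oo ∉ Y ∧ Disjoint Y P ∧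
      cl h E.oo Y.val = c := by
  classical
  have hn0 : E.n0 = 2 * E.c0 + 4 := rfl
  obtain ⟨Y, hY, hst, h01, hP, hcl⟩ := R.exists_rep h (E.c0 : ℤ) E.hc0 E.oo hE.oo (E.n0 : ℤ)
    (by rw [hn0]; push_cast; omega) (P ∪ {E.oo}) c hc
  have hnn : 0 ≤ Y := fun x => by
    rcases h01 x with h0 | h0 <;> rw [h0] <;> simp
  have hval : Y.support.val = toMS Y := by
    ext x
    rw [count_toMS, Multiset.count_eq_of_nodup Y.support.nodup]
    rcases h01 x with h0 | h0
    · rw [if_neg (by rw [Finset.mem_val, Finsupp.mem_support_iff, h0]; simp), h0]; rfl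
    · rw [if_pos (by rw [Finset.mem_val, Finsupp.mem_support_iff, h0]; simp), h0]; rfl
  have hdeg : Divisor.degree Y = E.n0 := by
    have := Divisor.mem_degZero.1 hY
    rw [map_sub, Divisor.degree_single, h.deg_eq_one] at this
    simp at this
    linarith
  have hcard : (toMS Y).card = E.n0 := by
    have := card_toMS h hnn
    rw [hdeg] at this
    exact_mod_cast this
  refine ⟨Y.support, ?_, ?_, ?_, ?_, ?_⟩
  · intro σ
    rw [hval]
    have := toMS_smul (R.ρ σ) Y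
    rw [hst σ] at this
    exact this.symm
  · rw [← hcard, ← hval]; rfl
  · rw [Finsupp.mem_support_iff, not_not]
    exact hP _ (Finset.mem_union_right _ (Finset.mem_singleton_self _))
  · rw [Finset.disjoint_left]
    intro x hx hxP
    exact (Finsupp.mem_support_iff.1 hx) (hP x (Finset.mem_union_left _ hxP))
  · rw [hval, cl_apply, ← hcl]
    congr 1
    apply Subtype.ext
    show clD E.oo (toMS Y) = Y - Finsupp.single E.oo (E.n0 : ℤ)
    rw [clD_apply, ofMS_toMS hnn, hcard]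

end Fermat.Agent.S17.Inst
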