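/-
S17 / INST, KEY [S17/I-PAIR]  (~350 lines; uses the STATEMENTS of Inst/Cl, Inst/Zero, Inst/Sec, Inst/MS, Rat/Pencil (pencil), Rat/Basis (span_inv)).

`stab_ofMS`: `Glob.Stab (X := PX R) T → R.Stab (ofMS T)` (`ofMS_map_smul`).
`exists_sec_of_div` (the workhorse): `D' ≥ 0` a stable divisor of degree `m n0` such that `D' - E.D m = div u` for an invariant `u ≠ 0`  ⇒ `u ∈ W m`, `u = sec s` (`exists_sec_of_inv`), `s ≠ 0`, `Zs h E m s = toMS D'`.
`gen`:  `m1 := 2`.  `D := E.D 2 - ofMS Y.val`, stable, degree `2 n0 - n0 = n0 ≥ c0 + 2`.  `R.pencil h c0 hc0 D _ _ (Y ∪ {oo})` gives an invariant `u ≠ 0` with `ord_x u + D x ∈ {0,1}`, `= 0` on `Y ∪ {oo}`.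
   `Rd x := ord_x u + D x` i.e. `Rd = dv h u + D ≥ 0`;  `Zd = dv u + E.D 2 = Rd + ofMS Y`: values `≤ 1` (`Rd = 0` on `Y`, `ofMS Y ≤ 1` as `Y` is a Finset, `= 0` off `Y`) ⇒ `Nodup` (`nodup_toMS_iff`); `Zd oo = 0`; `Y.val ≤ Zs` (`Multiset.le_iff_count`/`toMS_add`).
`pair`: given `nmax`, take `m` with `m * n0 ≥ 2 * nmax + c0 + 2` (e.g. `m = 2 * nmax + c0 + 2`).   `d_i = card T_i`, `b := d1 - d2` (truncated), `a := d2 - d1` (truncated), so `a + d1 = b + d2`.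
   `cl_eq_iff` gives `φ0 ≠ 0` with `div φ0 = clD T1 - clD T2 =: Δ`, a stable divisor.  `L(-Δ) = Kb φ0` is stable (`stabS_L`), finite dimensional, so by `R.span_inv` it contains an invariant `φ ≠ 0`; `φ = c φ0`, same divisor.
   `D := E.D m - ofMS T2 - single oo b`, stable, degree `≥ c0 + 2`.  `R.pencil` with `P ∪ {oo}`: invariant `w' ≠ 0`, `Rd := dv w' + D ≥ 0`, `Rd = 0` on `P ∪ {oo}`.   `R := toMS Rd`.
   `Z(w') = dv w' + E.D m = ofMS T2 + Rd + b oo`;   `s' := φ w'`: `dv s' + E.D m = Δ + ofMS T2 + Rd + b oo = ofMS T1 + Rd + a oo`  (`Δ = ofMS T1 - ofMS T2 - (d1 - d2) oo`, `b - (d1 - d2) = a` in ℤ).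
   `exists_sec_of_div` twice; `toMS_add`, `toMS_ofMS`, `toMS_single`.
-/
import Fermat.Agent.S17.Inst.Cl

set_option autoImplicit false

noncomputable section

namespace Fermat.Agent.S17.Inst

open AlgebraicCurve Fermat.Agent.S37 Fermat.Agent.S27 Fermat.Agent.S17.Loc Fermat.Agent.S17.Rat
  Fermat.Agent.S17.Glob MvPolynomial

variable {F : Type} [Field F] [Algebra Kb F] (h : IsFF Kb F) {E : PE Kb F} {R : RS Kb F GQ}

theorem stab_ofMS {T : Multiset (Place Kb F)} (hT : Glob.Stab (X := PX R) T) : R.Stab (ofMS T) := by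
  intro g
  rw [← ofMS_map_smul]
  exact congrArg ofMS (hT g)

theorem stab_D (hE : R.IsRat E) (m : ℕ) : R.Stab (E.D m) := RS.stab_single hE.oo _

theorem exists_sec_of_div (hE : R.IsRat E) (m : ℕ) {u : F} (hu : u ≠ 0) (hinv : R.Inv u)
    {D' : Divisor Kb F} (hD' : 0 ≤ D') (hdiv : ∀ x : Place Kb F, x.ord u + E.D m x = D' x) :
    ∃ s : Fin (dW E m) → ℚ, s ≠ 0 ∧ sec E m s = u ∧ Zs h E m s = toMS D' := by
  have hmem : u ∈ E.W m := by
    unfold PE.W
    rw [mem_riemannRochSpace_iff]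
    intro v
    right
    have h1 := hdiv v
    have h2 : 0 ≤ D' v := hD' v
    omega
  obtain ⟨s, hs⟩ := exists_sec_of_inv h hE m hmem hinv
  refine ⟨s, ?_, hs, ?_⟩
  · rintro rfl
    rw [sec_zero] at hs
    exact hu hs.symm
  · unfold Zs Zd
    congr 1
    ext x
    rw [hs, Finsupp.add_apply, AR.dv_apply h hu, hdiv]

include h in
/-- an invariant function with a given stable principal divisor -/
theorem exists_inv_of_div {Δ : Divisor Kb F} (hΔ : R.Stab Δ) {φ0 : F} (hφ0 : φ0 ≠ 0)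
    (hdiv : ∀ x : Place Kb F, x.ord φ0 = Δ x) :
    ∃ φ : F, φ ≠ 0 ∧ R.Inv φ ∧ ∀ x : Place Kb F, x.ord φ = Δ x := by
  haveI := finite_L h (-Δ)
  have hmem0 : φ0 ∈ riemannRochSpace (-Δ) := by
    rw [mem_riemannRochSpace_iff]
    intro v
    right
    rw [Finsupp.neg_apply, neg_neg, hdiv]
  have hspan := R.span_inv (riemannRochSpace (-Δ)) (R.stabS_L hΔ.neg) hmem0
  obtain ⟨φ, hφL, hφI, hφ0'⟩ : ∃ φ : F, φ ∈ riemannRochSpace (-Δ) ∧ R.Inv φ ∧ φ ≠ 0 := by
    by_contra hcon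
    push Not at hcon
    have hle : Submodule.span Kb {f : F | f ∈ riemannRochSpace (-Δ) ∧ R.Inv f} ≤ ⊥ :=
      Submodule.span_le.2 fun f hf => hcon f hf.1 hf.2
    exact hφ0 ((Submodule.mem_bot Kb).1 (hle hspan))
  refine ⟨φ, hφ0', hφI, ?_⟩
  have hΔ0 : Δ = AR.dv h φ0 := by
    ext x
    rw [AR.dv_apply h hφ0, hdiv]
  have hz : AR.dv h φ - Δ = 0 := by
    apply RiemannAux.eq_zero_of_degree_eq_zero h
    · intro v
      have := ((mem_riemannRochSpace_iff.1 hφL) v).resolve_left hφ0'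
      rw [Finsupp.neg_apply, neg_neg] at this
      rw [Finsupp.sub_apply, AR.dv_apply h hφ0']
      omega
    · rw [map_sub, AR.degree_dv, hΔ0, AR.degree_dv, sub_zero]
  intro x
  have := DFunLike.congr_fun hz x
  rw [Finsupp.sub_apply, AR.dv_apply h hφ0', Finsupp.zero_apply] at this
  omega

theorem pair (hE : R.IsRat E) (nmax : ℕ) : ∃ m : ℕ, ∀ T1 T2 : Multiset (Place Kb F),
    Glob.Stab (X := PX R) T1 → Glob.Stab (X := PX R) T2 → T1.card ≤ nmax → T2.card ≤ nmax →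
    cl h E.oo T1 = cl h E.oo T2 → ∀ P : Finset (Place Kb F),
    ∃ (s w : Fin (dW E m) → ℚ) (Rr : Multiset (Place Kb F)) (a b : ℕ),
      s ≠ 0 ∧ w ≠ 0 ∧ Zs h E m s = T1 + Rr + a • {E.oo} ∧ Zs h E m w = T2 + Rr + b • {E.oo} ∧
        ∀ x ∈ Rr, x ∉ P := by
  classical
  refine ⟨2 * nmax + E.c0 + 2, fun T1 T2 hT1 hT2 hc1 hc2 hcl P => ?_⟩
  set m := 2 * nmax + E.c0 + 2 with hm
  obtain ⟨φ0, hφ00, hφ0⟩ := (cl_eq_iff h E.oo T1 T2).1 hcl
  have hst1 : R.Stab (clD E.oo T1) := by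
    rw [clD_apply]; exact (stab_ofMS hT1).sub (RS.stab_single hE.oo _)
  have hst2 : R.Stab (clD E.oo T2) := by
    rw [clD_apply]; exact (stab_ofMS hT2).sub (RS.stab_single hE.oo _)
  obtain ⟨φ, hφ0', hφI, hφ⟩ := exists_inv_of_div h (hst1.sub hst2) hφ00
    (fun x => by rw [hφ0 x, Finsupp.sub_apply])
  set b : ℕ := T1.card - T2.card with hb
  set a : ℕ := T2.card - T1.card with ha
  set D : Divisor Kb F := E.D m - ofMS T2 - Finsupp.single E.oo (b : ℤ) with hD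
  have hDst : R.Stab D := ((stab_D hE m).sub (stab_ofMS hT2)).sub (RS.stab_single hE.oo _)
  have hn0 := E.n0_pos
  have hmn : m ≤ m * E.n0 := Nat.le_mul_of_pos_right _ hn0
  have hDdeg : (E.c0 : ℤ) + 2 ≤ Divisor.degree D := by
    rw [hD, map_sub, map_sub, E.degree_D h, degree_ofMS h, Divisor.degree_single, h.deg_eq_one]
    have : (m : ℤ) ≤ ((m * E.n0 : ℕ) : ℤ) := by exact_mod_cast hmn
    simp only [Nat.cast_one, mul_one]
    omega
  obtain ⟨w', hw0, hwI, hw01, hwP⟩ := R.pencil h (E.c0 : ℤ) E.hc0 D hDst hDdeg P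
  set Rd : Divisor Kb F := AR.dv h w' + D with hRd
  have hRda : ∀ x, Rd x = x.ord w' + D x := fun x => by
    rw [hRd, Finsupp.add_apply, AR.dv_apply h hw0]
  have hRdnn : 0 ≤ Rd := fun x => by
    rw [hRda]
    rcases hw01 x with h0 | h0 <;> rw [h0] <;> simp
  have hDa : ∀ x, D x = E.D m x - ofMS T2 x - (Finsupp.single E.oo (b : ℤ) : Divisor Kb F) x :=
    fun x => by rw [hD, Finsupp.sub_apply, Finsupp.sub_apply]
  have hsnn : ∀ n : ℕ, (0 : Divisor Kb F) ≤ Finsupp.single E.oo (n : ℤ) := fun n x => by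
    rw [Finsupp.single_apply]
    split_ifs <;> simp
  -- the section `w`
  obtain ⟨w, hw, -, hZw⟩ := exists_sec_of_div h hE m hw0 hwI
    (D' := ofMS T2 + Rd + Finsupp.single E.oo (b : ℤ))
    (add_nonneg (add_nonneg (ofMS_nonneg T2) hRdnn) (hsnn b)) (fun x => by
      rw [Finsupp.add_apply, Finsupp.add_apply, hRda, hDa]
      ring)
  -- the section `s`
  obtain ⟨s, hs, -, hZs⟩ := exists_sec_of_div h hE m (mul_ne_zero hφ0' hw0) (hφI.mul hwI)
    (D' := ofMS T1 + Rd + Finsupp.single E.oo (a : ℤ))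
    (add_nonneg (add_nonneg (ofMS_nonneg T1) hRdnn) (hsnn a)) (fun x => by
      rw [Place.ord_mul _ hφ0' hw0, hφ x, Finsupp.sub_apply, clD_apply, clD_apply,
        Finsupp.add_apply, Finsupp.add_apply, hRda, hDa, Finsupp.sub_apply, Finsupp.sub_apply]
      simp only [Finsupp.single_apply]
      split_ifs
      · have : (a : ℤ) + T1.card = b + T2.card := by
          rw [ha, hb]
          omega
        linarith
      · ring)
  refine ⟨s, w, toMS Rd, a, b, hs, hw, ?_, ?_, ?_⟩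
  · rw [hZs, toMS_add (add_nonneg (ofMS_nonneg T1) hRdnn) (hsnn a),
      toMS_add (ofMS_nonneg T1) hRdnn, toMS_ofMS, toMS_single]
  · rw [hZw, toMS_add (add_nonneg (ofMS_nonneg T2) hRdnn) (hsnn b),
      toMS_add (ofMS_nonneg T2) hRdnn, toMS_ofMS, toMS_single]
  · intro x hx hxP
    rw [mem_toMS, hRda, hwP x hxP] at hx
    exact lt_irrefl _ hx

theorem gen (hE : R.IsRat E) : ∃ m1 : ℕ, 2 ≤ m1 ∧ ∀ Y : Finset (Place Kb F),
    Glob.Stab (X := PX R) Y.val → Y.card = E.n0 → E.oo ∉ Y →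
    ∃ s : Fin (dW E m1) → ℚ, s ≠ 0 ∧ (Zs h E m1 s).Nodup ∧ E.oo ∉ Zs h E m1 s ∧ Y.val ≤ Zs h E m1 s := by
  classical
  refine ⟨2, le_rfl, fun Y hY hcard hoo => ?_⟩
  have hn0 : E.n0 = 2 * E.c0 + 4 := rfl
  set D : Divisor Kb F := E.D 2 - ofMS Y.val with hD
  have hDst : R.Stab D := (stab_D hE 2).sub (stab_ofMS hY)
  have hDdeg : (E.c0 : ℤ) + 2 ≤ Divisor.degree D := by
    rw [hD, map_sub, E.degree_D h, degree_ofMS h]
    have : Y.val.card = E.n0 := hcard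
    rw [this]
    push_cast
    omega
  obtain ⟨u, hu0, huI, hu01, huP⟩ := R.pencil h (E.c0 : ℤ) E.hc0 D hDst hDdeg (Y ∪ {E.oo})
  have hYa : ∀ x, ofMS Y.val x = if x ∈ Y then 1 else 0 := fun x => by
    rw [ofMS_apply, Multiset.count_eq_of_nodup Y.nodup]
    simp only [Finset.mem_val]
    split_ifs <;> simp
  have hDa : ∀ x, D x = E.D 2 x - ofMS Y.val x := fun x => by rw [hD, Finsupp.sub_apply]
  set D' : Divisor Kb F := AR.dv h u + E.D 2 with hD'
  have hD'a : ∀ x, D' x = (x.ord u + D x) + ofMS Y.val x := fun x => by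
    rw [hD', Finsupp.add_apply, AR.dv_apply h hu0, hDa]
    ring
  have hD'nn : 0 ≤ D' := fun x => by
    rw [hD'a, hYa]
    rcases hu01 x with h0 | h0 <;> rw [h0] <;> split_ifs <;> simp
  obtain ⟨s, hs, -, hZ⟩ := exists_sec_of_div h hE 2 hu0 huI hD'nn (fun x => by
    rw [hD', Finsupp.add_apply, AR.dv_apply h hu0])
  refine ⟨s, hs, ?_, ?_, ?_⟩
  · rw [hZ, nodup_toMS_iff]
    intro x
    rw [hD'a, hYa]
    by_cases hx : x ∈ Y
    · rw [if_pos hx, huP x (Finset.mem_union_left _ hx)]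
      simp
    · rw [if_neg hx]
      rcases hu01 x with h0 | h0 <;> rw [h0] <;> simp
  · rw [hZ, mem_toMS, hD'a, hYa, if_neg hoo,
      huP _ (Finset.mem_union_right _ (Finset.mem_singleton_self _))]
    simp
  · rw [hZ, Multiset.le_iff_count]
    intro x
    rw [count_toMS]
    have h1 := hD'a x
    have h2 : (0 : ℤ) ≤ x.ord u + D x := by
      rcases hu01 x with h0 | h0 <;> rw [h0] <;> simp
    have h3 := ofMS_apply Y.val x
    omega

end Fermat.Agent.S17.Inst
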