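/-
S17 / INST : assembly of `Glob.HtData` from the keys of Inst/*.   (owner helper29)
-/
import Fermat.Agent.S17.Inst.E1
import Fermat.Agent.S17.Inst.Det
import Fermat.Agent.S17.Inst.Pair

set_option autoImplicit false

noncomputable section

namespace Fermat.Agent.S17.Inst

open AlgebraicCurve Fermat.Agent.S37 Fermat.Agent.S27 Fermat.Agent.S17.Loc Fermat.Agent.S17.Rat
  Fermat.Agent.S17.Glob MvPolynomial

variable {F : Type} [Field F] [Algebra Kb F]

theorem nonempty_htData (h : IsFF Kb F) (𝒜 : AVFam) (R : RS Kb F GQ)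
    (hb : ∀ (σ : GQ) (c : Kb), SemilinearAut.baseAut (R.ρ σ) c = σ c)
    (E : PE Kb F) (hE : R.IsRat E) (Γ : AddSubgroup (Pic0 Kb F))
    (hΓ : ∀ c ∈ Γ, ∀ σ : GQ, R.ρ σ • c = c) : Nonempty (HtData 𝒜 (PX R) Γ) := by
  obtain ⟨one, hone, hZone⟩ := exists_one h hE
  obtain ⟨pa, hpa, hpad⟩ := exists_pa h hE
  choose mul hmul using fun e e' => exists_mul h hE e e'
  exact ⟨{
    oo := E.oo
    n0 := E.n0
    g := genusFF Kb F
    hg := genus_lt E h
    nx := lnx 𝒜 E
    lam := llam 𝒜 E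
    nx_nonneg := lnx_nonneg 𝒜 E h
    nx_fs := lnx_fs 𝒜 E h
    lam_symm := llam_symm 𝒜 E
    lam_fs := fun x y hxy => llam_fs 𝒜 E h hxy
    r := E.r + 1
    co := E.lift
    co_smul := fun σ x j => lift_smul' h hb hE σ x j
    co_inj := lift_injective E h
    co_le := lift_le 𝒜 E h
    dW := dW E
    dW_eq := dW_eq E h
    ev := evb E
    ev_smul := fun σ e l x => evb_smul h hb hE σ e l x
    Z := Zs h E
    Z_card := fun e s hs => Zs_card h E e hs
    Z_stab := fun e s hs => Zs_stab h hE e hs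
    mem_Z := fun e s x hs => mem_Zs h E e hs x
    e1 := e1 𝒜 E h
    one := one
    one_ne := hone
    Z_one := hZone
    pa := pa
    pa_ne := hpa
    pa_disj := hpad
    mul := mul
    mul_ne := fun e e' s w hs hw => (Zs_mul h E e e' hs hw (hmul e e' s w)).1
    Z_mul := fun e e' s w hs hw => (Zs_mul h E e e' hs hw (hmul e e' s w)).2
    mult := fun e e' => by
      obtain ⟨γ, hγ, H⟩ := mult 𝒜 E h e e'
      exact ⟨γ, hγ, fun v s w hs hw => H v s w _ hs hw (hmul e e' s w)⟩
    det_ne := det_ne E h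
    det := det 𝒜 E h
    cl := cl h E.oo
    cl_oo := cl_oo h E.oo
    cl_Z := fun e s hs => cl_Zs h E e hs
    rep := fun c hc P => rep h hE c (hΓ c hc) P
    pair := pair h hE
    gen := gen h hE }⟩

end Fermat.Agent.S17.Inst
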